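import Fermat.Agent.LT.A2.H488.FormBasic

/-!
# Row LT, tower A2, leaf A2.03.8.5.4 `H254.FormC254` (helper488): THE PROOF

OFF-MAIN.  `formC254_488 : H254.FormC254`, VERBATIM the `Prop` of `LT/A2/H254/RecSplitSpec.lean`
(helper254@51dfc4e4e, sha256 947dfa59).  Complete proofs, nothing assumed.

`g_j = diag(ϖ^j, 1)_v g' = t(A) d(A) g'` with the idele `A = det(μ^j)` (`ϖ^j` at `v`, `1` at every
other place); `IsWhit.formula` at the partner `μ^j m'`; `diagA` (`η(A) = 1` by `quad.norm`,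
`|A|_𝔸 = q^{-j}`); `torA` with `μ' = μ^j`; `A μ^{-j} = μ̄^j` as adelic matrices; `χT`
multiplicative; the integrands agree on `T¹` and `μT` is carried by `T¹`.
-/

set_option autoImplicit false

open IsDedekindDomain NumberField AutomorphicForm MeasureTheory
open scoped MatrixGroups

noncomputable section

namespace Fermat.Agent.LT.A2.H488

open Fermat.Agent.LT.H556 Fermat.Agent.LT.H556.A0 Fermat.Agent.LT.H129
open Fermat.Agent.LT.A2.H142 Fermat.Agent.LT.A2.H254 Fermat.Agent.LT.A2.WL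

variable {K : Type} [Field K] [NumberField K]

/-! ## The module of an idele supported at `v` -/

theorem norm_unif488f (v : HeightOneSpectrum (𝓞 K)) {ϖ : v.adicCompletion K}
    (hϖ : Valued.v ϖ = WithZero.exp (-1 : ℤ)) :
    ‖ϖ‖ = ((Ideal.absNorm v.asIdeal : ℝ))⁻¹ := by
  have h : ‖ϖ‖ = (Ideal.absNorm v.asIdeal : ℝ) ^ (-1 : ℤ) := by
    rw [FinitePlace.norm_def, hϖ, WithZeroMulInt.toNNReal_neg_apply _ WithZero.exp_ne_zero]
    push_cast
    congr 1
  rw [h, zpow_neg_one]

theorem adNorm_of_local488 (v : HeightOneSpectrum (𝓞 K)) (x : Adl K)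
    (h1 : ∀ w : InfinitePlace K, x.1 w = 1)
    (h2 : ∀ v' : HeightOneSpectrum (𝓞 K), v' ≠ v → x.2 v' = 1) :
    T1.adNorm K x = ‖x.2 v‖ := by
  unfold T1.adNorm
  rw [Finset.prod_eq_one (fun w _ => by rw [h1 w, norm_one, one_pow]), one_mul]
  exact finprod_eq_single _ v (fun v' hv' => by rw [h2 v' hv', norm_one])

/-! ## The leaf -/

/-- **A2.03.8.5.4 FORM**, verbatim `H254.FormC254`. -/
theorem formC254_488 : FormC254 := by
  intro K _ _ D η W v hctx ϖ hϖ μ μb hp g' m' hadm j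
  have hgood := hctx.good
  have hstd := hctx.std
  have hχ := hgood.torus
  have hW := hctx.whit
  -- the idele `A = det (μ ^ j)`
  have hμj : InTorus D.t D.n (μ ^ j) := inTorus_pow488 hp.tor j
  have hlocj : IsLocalAtFin v (μ ^ j) := isLocalAtFin_pow488 hp.loc j
  obtain ⟨A, hA⟩ : ∃ A : (Adl K)ˣ, A = Matrix.GeneralLinearGroup.det (μ ^ j) := ⟨_, rfl⟩
  have hA_inf : ∀ w : InfinitePlace K, (A : Adl K).1 w = 1 := fun w => by
    rw [hA]; exact det_inf_of_local488 hlocj w
  have hA_ne : ∀ v' : HeightOneSpectrum (𝓞 K), v' ≠ v → (A : Adl K).2 v' = 1 := fun v' hv' => by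
    rw [hA]; exact det_fin_of_local488 hlocj hv'
  have hA_v : (A : Adl K).2 v = ϖ ^ j := by
    rw [hA, evF_det488, finComp_pow488, Matrix.det_pow, hp.det]
  have hAI : ∀ w : InfinitePlace K, evI129 w (A : Adl K) = 1 := hA_inf
  have hAFne : ∀ v' : HeightOneSpectrum (𝓞 K), v' ≠ v → evF129 v' (A : Adl K) = 1 := hA_ne
  have hAF : evF129 v (A : Adl K) = ϖ ^ j := hA_v
  -- `diag(ϖ^j, 1)_v = t(A) d(A)`
  have hgj : locFin129 v (dgl142 v ϖ (unif_ne_zero129 v hϖ) j) = diagSL488 A * diagOne488 A := by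
    apply Units.ext
    rw [coe_diagSL_mul_diagOne488, coe_locFin129]
    apply adeleMatrix_ext129
    · intro w
      rw [locMat129_map_inf]
      ext a b
      fin_cases a <;> fin_cases b <;> simp [-evI129_apply, -evF129_apply, hAI w]
    · intro v'
      by_cases h : v' = v
      · subst h
        rw [locMat129_map_same]
        ext a b
        fin_cases a <;> fin_cases b <;> simp [-evI129_apply, -evF129_apply, hAF, dgl142, diag129]
      · rw [locMat129_map_of_ne v _ h]
        ext a b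
        fin_cases a <;> fin_cases b <;> simp [-evI129_apply, -evF129_apply, hAFne v' h]
  -- `μ^j μ̄^j` is the scalar `A`
  have hz : ((μ ^ j * μb ^ j : G K) : Matrix (Fin 2) (Fin 2) (Adl K))
      = Matrix.diagonal (fun _ => (A : Adl K)) := by
    have hlocbj : IsLocalAtFin v (μb ^ j) := isLocalAtFin_pow488 hp.locb j
    have hloc := isLocalAtFin_mul129 hlocj hlocbj
    apply adeleMatrix_ext129
    · intro w
      rw [map_evI_of_local488 hloc w]
      ext a b
      fin_cases a <;> fin_cases b <;> simp [-evI129_apply, -evF129_apply, hAI w]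
    · intro v'
      by_cases h : v' = v
      · subst h
        rw [map_evF_same488, finComp_mul488, finComp_pow488, finComp_pow488]
        have hc : Commute (finComp v' μ) (finComp v' μb) := by
          have h1 := congrArg (finComp v') (inTorus_comm142 hp.tor hp.torb)
          rw [finComp_mul488, finComp_mul488] at h1
          exact h1
        rw [← hc.mul_pow, hp.mul, Matrix.diagonal_pow]
        ext a b
        fin_cases a <;> fin_cases b <;> simp [-evI129_apply, -evF129_apply, hAF]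
      · rw [map_evF_of_local488 hloc h]
        ext a b
        fin_cases a <;> fin_cases b <;> simp [-evI129_apply, -evF129_apply, hAFne v' h]
  have hact : actV (μ ^ j)⁻¹ ((A : Adl K) • ((1 : Adl K), (0 : Adl K)))
      = actV (μb ^ j) ((1 : Adl K), (0 : Adl K)) := by
    rw [← actV_of_scalar488 hz, actV_mul488, actV_inv_mul488]
  -- the module of `A`
  have hq0 : (0 : ℝ) ≤ (Ideal.absNorm v.asIdeal : ℝ) := Nat.cast_nonneg _
  have hN : T1.adNorm K (A : Adl K) = (((Ideal.absNorm v.asIdeal : ℝ))⁻¹) ^ j := by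
    rw [adNorm_of_local488 v _ hA_inf hA_ne, hA_v, norm_pow, norm_unif488f v hϖ]
  have hsN : Real.sqrt (T1.adNorm K (A : Adl K))
      = ((Real.sqrt (Ideal.absNorm v.asIdeal : ℝ))⁻¹) ^ j := by
    rw [hN]
    have hr0 : (0 : ℝ) ≤ ((Real.sqrt (Ideal.absNorm v.asIdeal : ℝ))⁻¹) ^ j :=
      pow_nonneg (inv_nonneg.2 (Real.sqrt_nonneg _)) j
    have hsq : (((Ideal.absNorm v.asIdeal : ℝ))⁻¹) ^ j
        = (((Real.sqrt (Ideal.absNorm v.asIdeal : ℝ))⁻¹) ^ j) ^ 2 := by
      rw [← pow_mul, mul_comm, pow_mul, inv_pow _ 2, Real.sq_sqrt hq0]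
    rw [hsq, Real.sqrt_sq hr0]
  have hNs : ((T1.adNorm K (A : Adl K) : ℝ) : ℂ)
      = ((Real.sqrt (T1.adNorm K (A : Adl K)) : ℝ) : ℂ)
        * ((Real.sqrt (T1.adNorm K (A : Adl K)) : ℝ) : ℂ) := by
    rw [← Complex.ofReal_mul, Real.mul_self_sqrt]
    rw [hN]
    exact pow_nonneg (inv_nonneg.2 hq0) j
  have hsC : ((Real.sqrt (T1.adNorm K (A : Adl K)) : ℝ) : ℂ) * sqC142 v ^ j = 1 := by
    rw [hsN]
    unfold sqC142
    push_cast
    rw [← mul_pow, inv_mul_cancel₀, one_pow]
    intro h0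
    have := sqC142_ne_zero v
    unfold sqC142 at this
    exact this h0
  have hη : η A = 1 := by rw [hA]; exact hstd.quad.norm (μ ^ j) hμj
  -- admissibility
  have hadm1 : Adm D.t D.n (diagOne488 A * g') (μ ^ j * m') :=
    adm_mul142 ⟨hμj, by rw [det_diagOne488, hA]⟩ hadm
  have hadm0 : Adm D.t D.n (locFin129 v (dgl142 v ϖ (unif_ne_zero129 v hϖ) j) * g')
      (μ ^ j * m') := by
    rw [hgj, mul_assoc]
    have h1 : Adm D.t D.n (diagSL488 A) (1 : G K) :=
      ⟨inTorus_one142 D.t D.n, by rw [det_diagSL488, map_one]⟩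
    have h2 := adm_mul142 h1 hadm1
    rwa [one_mul] at h2
  -- the integrands
  have key : ∀ m₀ : G K, InTorus1 D.t D.n m₀ →
      D.F (locFin129 v (dgl142 v ϖ (unif_ne_zero129 v hϖ) j) * g') (m₀ * (μ ^ j * m')) (1, 0)
          * D.χT (m₀ * (μ ^ j * m'))
        = (((Real.sqrt (T1.adNorm K (A : Adl K)) : ℝ) : ℂ) * D.χT μ ^ j)
          * orbFn254 D g' m' (actV (μb ^ j) (1, 0)) m₀ := by
    intro m₀ h0
    have hadm2 : Adm D.t D.n (diagOne488 A * g') (m₀ * (μ ^ j * m')) :=
      adm_torus1_mul142 h0 hadm1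
    have hadm3 : Adm D.t D.n g' (m₀ * m') := adm_torus1_mul142 h0 hadm
    have hcomm : m₀ * (μ ^ j * m') = μ ^ j * (m₀ * m') := by
      rw [← mul_assoc, inTorus_comm142 h0.1 hμj, mul_assoc]
    have hdA : IsDiagOneA (diagOne488 A) (Matrix.GeneralLinearGroup.det (μ ^ j)) := by
      rw [← hA]; exact isDiagOneA_diagOne488 A
    have htor := hstd.torA (μ ^ j) (diagOne488 A) hμj hdA g' (m₀ * m')
      ((A : Adl K) • ((1 : Adl K), (0 : Adl K))) hadm3
    rw [← hA, hact] at htor
    rw [hgj, mul_assoc,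
      hstd.diagA (diagSL488 A) A (isDiagSLA_diagSL488 A) _ _ _ hadm2, hη, hcomm,
      hχ.mul _ _ hμj hadm3.1, chi_pow488 hχ hp.tor, hNs]
    unfold orbFn254
    rw [← htor]
    ring
  rw [show om142 W v ϖ (unif_ne_zero129 v hϖ) g' j
      = W (locFin129 v (dgl142 v ϖ (unif_ne_zero129 v hϖ) j) * g') from rfl,
    hW.formula _ _ hadm0, intT_congr142 D hgood.measured key, intT_const_mul142]
  show sqC142 v ^ j * ((((Real.sqrt (T1.adNorm K (A : Adl K)) : ℝ) : ℂ) * D.χT μ ^ j)
      * D.intT {m | InTorus1 D.t D.n m} (orbFn254 D g' m' (actV (μb ^ j) (1, 0))))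
    = D.χT μ ^ j * D.intT (T1set254 D.t D.n) (orbFn254 D g' m' (actV (μb ^ j) (1, 0)))
  have : T1set254 D.t D.n = {m | InTorus1 D.t D.n m} := rfl
  rw [this]
  linear_combination (D.χT μ ^ j * D.intT {m | InTorus1 D.t D.n m}
    (orbFn254 D g' m' (actV (μb ^ j) (1, 0)))) * hsC

end Fermat.Agent.LT.A2.H488

end
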