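import Fermat.Agent.LT.A2.H254.RecSplitSpec
import Fermat.Agent.LT.A2.H142.HeckeBasic

/-!
# Row LT, tower A2, leaf A2.03.8.5.4 `H254.FormC254` (helper488): basic lemmas

OFF-MAIN.  Imports = byte-identical copies of `LT/A2/H254/RecSplitSpec.lean` (helper254@51dfc4e4e,
sha256 947dfa59) and `LT/A2/H142/HeckeBasic.lean` (helper142@8080e2c63, sha256 e5f69b2f).
Complete proofs, nothing assumed.

* `diagSL488 a = diag(a, a⁻¹)`, `diagOne488 a = diag(1, a)` for an idele `a`;
* components of the determinant idele of an element supported at `v`;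
* `adNorm` of an idele supported at `v`;
* `actV` is an action, linear in the vector.
-/

set_option autoImplicit false

open IsDedekindDomain NumberField AutomorphicForm MeasureTheory
open scoped MatrixGroups

noncomputable section

namespace Fermat.Agent.LT.A2.H488

open Fermat.Agent.LT.H556 Fermat.Agent.LT.H556.A0 Fermat.Agent.LT.H129
open Fermat.Agent.LT.A2.H142 Fermat.Agent.LT.A2.H254 Fermat.Agent.LT.A2.WL

variable {K : Type} [Field K] [NumberField K]

/-! ## Diagonal elements attached to an idele -/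

/-- `t(a) = diag(a, a⁻¹)`. -/
def diagSL488 (a : (Adl K)ˣ) : G K where
  val := !![(a : Adl K), 0; 0, ((a⁻¹ : (Adl K)ˣ) : Adl K)]
  inv := !![((a⁻¹ : (Adl K)ˣ) : Adl K), 0; 0, (a : Adl K)]
  val_inv := by
    rw [Matrix.mul_fin_two, Matrix.one_fin_two]
    simp
  inv_val := by
    rw [Matrix.mul_fin_two, Matrix.one_fin_two]
    simp

/-- `d(a) = diag(1, a)`. -/
def diagOne488 (a : (Adl K)ˣ) : G K where
  val := !![1, 0; 0, (a : Adl K)]
  inv := !![1, 0; 0, ((a⁻¹ : (Adl K)ˣ) : Adl K)]
  val_inv := by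
    rw [Matrix.mul_fin_two, Matrix.one_fin_two]
    simp
  inv_val := by
    rw [Matrix.mul_fin_two, Matrix.one_fin_two]
    simp

theorem coe_diagSL488 (a : (Adl K)ˣ) :
    ((diagSL488 a : G K) : Matrix (Fin 2) (Fin 2) (Adl K))
      = !![(a : Adl K), 0; 0, ((a⁻¹ : (Adl K)ˣ) : Adl K)] := rfl

theorem coe_diagOne488 (a : (Adl K)ˣ) :
    ((diagOne488 a : G K) : Matrix (Fin 2) (Fin 2) (Adl K)) = !![1, 0; 0, (a : Adl K)] := rfl

theorem isDiagSLA_diagSL488 (a : (Adl K)ˣ) : IsDiagSLA (diagSL488 a) a := rfl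

theorem isDiagOneA_diagOne488 (a : (Adl K)ˣ) : IsDiagOneA (diagOne488 a) a := rfl

theorem det_diagSL488 (a : (Adl K)ˣ) : Matrix.GeneralLinearGroup.det (diagSL488 a) = 1 := by
  apply Units.ext
  rw [Matrix.GeneralLinearGroup.val_det_apply, coe_diagSL488, Matrix.det_fin_two_of]
  simp

theorem det_diagOne488 (a : (Adl K)ˣ) : Matrix.GeneralLinearGroup.det (diagOne488 a) = a := by
  apply Units.ext
  rw [Matrix.GeneralLinearGroup.val_det_apply, coe_diagOne488, Matrix.det_fin_two_of]
  simp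

theorem coe_diagSL_mul_diagOne488 (a : (Adl K)ˣ) :
    ((diagSL488 a * diagOne488 a : G K) : Matrix (Fin 2) (Fin 2) (Adl K))
      = !![(a : Adl K), 0; 0, 1] := by
  rw [Matrix.GeneralLinearGroup.coe_mul, coe_diagSL488, coe_diagOne488, Matrix.mul_fin_two]
  simp

/-! ## The determinant idele of an element supported at `v` -/

theorem evI_det488 (w : InfinitePlace K) (g : G K) :
    ((Matrix.GeneralLinearGroup.det g : (Adl K)ˣ) : Adl K).1 w
      = ((g : Matrix (Fin 2) (Fin 2) (Adl K)).map (evI129 w)).det := by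
  have h := RingHom.map_det (evI129 w) (g : Matrix (Fin 2) (Fin 2) (Adl K))
  rw [RingHom.mapMatrix_apply] at h
  rw [← h, Matrix.GeneralLinearGroup.val_det_apply]
  rfl

theorem evF_det488 (v : HeightOneSpectrum (𝓞 K)) (g : G K) :
    ((Matrix.GeneralLinearGroup.det g : (Adl K)ˣ) : Adl K).2 v = (finComp v g).det := by
  have h := RingHom.map_det (evF129 v) (g : Matrix (Fin 2) (Fin 2) (Adl K))
  rw [RingHom.mapMatrix_apply] at h
  rw [← coe_finCompHom129, coe_finCompHom129_map, ← h, Matrix.GeneralLinearGroup.val_det_apply]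
  rfl

theorem map_evI_of_local488 {v : HeightOneSpectrum (𝓞 K)} {g : G K} (hg : IsLocalAtFin v g)
    (w : InfinitePlace K) : (g : Matrix (Fin 2) (Fin 2) (Adl K)).map (evI129 w) = 1 := by
  have h := (isLocalAtFin_iff129 v g).1 hg
  have h1 := h.1 w
  rw [← coe_infCompHom129_map, h1]
  rfl

theorem map_evF_of_local488 {v : HeightOneSpectrum (𝓞 K)} {g : G K} (hg : IsLocalAtFin v g)
    {v' : HeightOneSpectrum (𝓞 K)} (hv : v' ≠ v) :
    (g : Matrix (Fin 2) (Fin 2) (Adl K)).map (evF129 v') = 1 := by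
  have h := (isLocalAtFin_iff129 v g).1 hg
  have h1 := h.2 v' hv
  rw [← coe_finCompHom129_map, h1]
  rfl

theorem map_evF_same488 (v : HeightOneSpectrum (𝓞 K)) (g : G K) :
    (g : Matrix (Fin 2) (Fin 2) (Adl K)).map (evF129 v) = finComp v g := rfl

theorem det_inf_of_local488 {v : HeightOneSpectrum (𝓞 K)} {g : G K} (hg : IsLocalAtFin v g)
    (w : InfinitePlace K) :
    ((Matrix.GeneralLinearGroup.det g : (Adl K)ˣ) : Adl K).1 w = 1 := by
  rw [evI_det488, map_evI_of_local488 hg, Matrix.det_one]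

theorem det_fin_of_local488 {v : HeightOneSpectrum (𝓞 K)} {g : G K} (hg : IsLocalAtFin v g)
    {v' : HeightOneSpectrum (𝓞 K)} (hv : v' ≠ v) :
    ((Matrix.GeneralLinearGroup.det g : (Adl K)ˣ) : Adl K).2 v' = 1 := by
  rw [evF_det488]
  have := map_evF_of_local488 hg hv
  rw [map_evF_same488] at this
  rw [this, Matrix.det_one]

theorem isLocalAtFin_pow488 {v : HeightOneSpectrum (𝓞 K)} {g : G K} (hg : IsLocalAtFin v g)
    (j : ℕ) : IsLocalAtFin v (g ^ j) := by
  induction j with
  | zero => rw [pow_zero]; exact isLocalAtFin_one129 v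
  | succ j ih => rw [pow_succ]; exact isLocalAtFin_mul129 ih hg

theorem finComp_pow488 (v : HeightOneSpectrum (𝓞 K)) (g : G K) (j : ℕ) :
    finComp v (g ^ j) = finComp v g ^ j := by
  rw [← coe_finCompHom129, map_pow, Units.val_pow_eq_pow_val, coe_finCompHom129]

theorem finComp_mul488 (v : HeightOneSpectrum (𝓞 K)) (g h : G K) :
    finComp v (g * h) = finComp v g * finComp v h := by
  rw [← coe_finCompHom129, map_mul, Units.val_mul, coe_finCompHom129, coe_finCompHom129]

/-! ## The torus -/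

theorem inTorus_pow488 {t n : K} {m : G K} (hm : InTorus t n m) (j : ℕ) :
    InTorus t n (m ^ j) := by
  induction j with
  | zero => rw [pow_zero]; exact inTorus_one142 t n
  | succ j ih => rw [pow_succ]; exact inTorus_mul142 ih hm

theorem chi_pow488 {t n : K} {χT : G K → ℂ} (hχ : IsTorusChar t n χT) {m : G K}
    (hm : InTorus t n m) (j : ℕ) : χT (m ^ j) = χT m ^ j := by
  induction j with
  | zero => rw [pow_zero, pow_zero]; exact hχ.one
  | succ j ih => rw [pow_succ, pow_succ, hχ.mul _ _ (inTorus_pow488 hm j) hm, ih]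

/-! ## The action on vectors -/

theorem actV_mul488 (m m' : G K) (ξ : Adl K × Adl K) :
    actV (m * m') ξ = actV m (actV m' ξ) := by
  unfold actV
  rw [Matrix.GeneralLinearGroup.coe_mul]
  simp only [Matrix.mul_apply, Fin.sum_univ_two]
  ext <;> ring

theorem actV_one488 (ξ : Adl K × Adl K) : actV (1 : G K) ξ = ξ := by
  unfold actV
  simp

theorem actV_inv_mul488 (m : G K) (ξ : Adl K × Adl K) : actV m⁻¹ (actV m ξ) = ξ := by
  rw [← actV_mul488, inv_mul_cancel, actV_one488]

/-- A scalar matrix acts by the scalar. -/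
theorem actV_of_scalar488 {z : G K} {c : Adl K}
    (hz : (z : Matrix (Fin 2) (Fin 2) (Adl K)) = Matrix.diagonal (fun _ => c))
    (ξ : Adl K × Adl K) : actV z ξ = c • ξ := by
  unfold actV
  rw [hz]
  ext <;> simp

end Fermat.Agent.LT.A2.H488

end
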